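import Fermat.Statements.S20
import Fermat.Agent.DimS2.Bridge
import Fermat.Agent.Gamma0Comb.Index

set_option autoImplicit false
open CuspForm

namespace Fermat.Agent.S20

theorem result (N : ℕ) [NeZero N] :
    (Module.finrank ℂ (CuspForm (CongruenceSubgroup.Gamma0 N) 2) : ℚ) = ModularCurve.genusFormula N := by
  classical
  have hcard := Gamma0Comb.card_quot N
  have hfin : Finite (DimS2.Cos N) := by
    have : (CongruenceSubgroup.Gamma0 N).FiniteIndex := inferInstance
    exact Subgroup.finite_quotient_of_finiteIndex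
  have := Fintype.ofFinite (DimS2.Cos N)
  rw [(DimS2.cuspEquiv N 2).finrank_eq, DimS2.finrank_VS_two (DimS2.good_Cos N),
    Gamma0Comb.card_fix_S, Gamma0Comb.card_fix_ST]
  have h4 : Nat.card (MulAction.orbitRel.Quotient (Subgroup.zpowers ModularGroup.T) (DimS2.Cos N)) =
      ModularCurve.cuspCount N := Gamma0Comb.card_orbits_T N
  erw [h4]
  rw [Nat.card_eq_fintype_card] at hcard
  unfold ModularCurve.genusFormula
  rw [← hcard]

end Fermat.Agent.S20
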