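import Fermat.Statements.S23
import Fermat.Agent.S20
import Fermat.Agent.EichlerShimura.SignLattice

set_option autoImplicit false
open CuspForm

namespace Fermat.Agent.S23

theorem result (N : ℕ) [NeZero N] : CuspForm.HasIntegralStructure N 2 := by
  refine Fermat.Agent.EichlerShimura.hasIntegralStructure_two ?_
  have h1 := Fermat.Agent.EichlerShimura.finrank_parabolicHoms_le (N := N)
  rw [← Fermat.Agent.S20.result N] at h1
  exact_mod_cast h1

end Fermat.Agent.S23
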