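import Fermat.Statements.S07
import Fermat.Prelude.Thm_ModularForm_sturm_bound_Gamma0
import Fermat.Prelude.Thm_CongruenceSubgroup_one_mem_strictPeriods_Gamma0

set_option autoImplicit false
open WeierstrassCurve WeierstrassCurve.Affine WeierstrassCurve.Affine.Point
open CuspForm ModularFormClass UpperHalfPlane
open ModularForm

namespace Fermat.Agent.S07

open scoped MatrixGroups in
private lemma index_Gamma0_two_le : (CongruenceSubgroup.Gamma0 2).index ≤ 4 := by
  classical
  let f : SL(2, ℤ) ⧸ CongruenceSubgroup.Gamma0 2 → ZMod 2 × ZMod 2 :=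
    fun q => (((q.out 0 0 : ℤ) : ZMod 2), ((q.out 1 0 : ℤ) : ZMod 2))
  have hf : Function.Injective f := by
    intro q q' h
    have h0 : ((q.out 0 0 : ℤ) : ZMod 2) = ((q'.out 0 0 : ℤ) : ZMod 2) := congrArg Prod.fst h
    have h1 : ((q.out 1 0 : ℤ) : ZMod 2) = ((q'.out 1 0 : ℤ) : ZMod 2) := congrArg Prod.snd h
    rw [← q.out_eq', ← q'.out_eq']
    rw [QuotientGroup.eq]
    rw [CongruenceSubgroup.Gamma0_mem]
    have : ((q.out)⁻¹ * q'.out) 1 0 = - q.out 1 0 * q'.out 0 0 + q.out 0 0 * q'.out 1 0 := by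
      rw [Matrix.SpecialLinearGroup.coe_mul, Matrix.mul_apply, Fin.sum_univ_two]
      rw [Matrix.SpecialLinearGroup.SL2_inv_expl]
      simp
    rw [this]
    push_cast
    rw [h0, h1]
    ring
  calc (CongruenceSubgroup.Gamma0 2).index = Nat.card (SL(2, ℤ) ⧸ CongruenceSubgroup.Gamma0 2) := rfl
    _ ≤ Nat.card (ZMod 2 × ZMod 2) := Nat.card_le_card_of_injective f hf
    _ = 4 := by rw [Nat.card_prod, Nat.card_zmod]

theorem result (f : CuspForm (CongruenceSubgroup.Gamma0 2) 2) : f = 0 := by
  have hidx := index_Gamma0_two_le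
  have hg := ModularForm.sturm_bound_Gamma0 2 (ModularFormClass.modularForm f) (by
    intro n hn
    have hn0 : n = 0 := by omega
    subst hn0
    exact CuspFormClass.qExpansion_coeff_zero f one_pos
      (CongruenceSubgroup.one_mem_strictPeriods_Gamma0 2))
  ext z
  have := congrArg (fun g : ModularForm (CongruenceSubgroup.Gamma0 2) 2 => g z) hg
  exact this

end Fermat.Agent.S07
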