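import Fermat.Statements.S44
import Fermat.Agent.AtG.Frey
import Fermat.Agent.FU.Final
import Fermat.Agent.PicZ.Pic0

set_option autoImplicit false
set_option linter.style.haveILetI false
open WeierstrassCurve WeierstrassCurve.Affine WeierstrassCurve.Affine.Point
open CuspForm ModularFormClass UpperHalfPlane
open FreyPackage

namespace Fermat.Agent.S44

theorem result (P : FreyPackage) {N : ℕ} (hcond : P.IsConductorLevel N) (hpN : P.p ∣ N) (hirr : GaloisRepIsIrreducible (K := AlgebraicClosure ℚ) ℚ P.freyCurve P.p) (hmod : P.ModularRepOfLevel N) : ∃ M : ℕ, M ∣ N ∧ ¬ P.p ∣ M ∧ P.ModularRepOfLevel M := by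
  classical
  haveI : Fact P.p.Prime := ⟨P.pp⟩
  haveI : NeZero P.p := ⟨P.pp.ne_zero⟩
  have habc := hcond.p_dvd_abc hpN
  obtain ⟨M, rfl⟩ := hpN
  haveI : NeZero (P.p * M) := ⟨hcond.pos.ne'⟩
  haveI : NeZero M := ⟨fun h => hcond.pos.ne' (by rw [h, mul_zero])⟩
  have hpM : ¬ P.p ∣ M := by
    intro h
    exact P.pp.one_lt.ne' (Nat.isUnit_iff.mp (hcond.squarefree P.p (mul_dvd_mul_left P.p h)))
  have hcop : Nat.Coprime P.p M := (Nat.Prime.coprime_iff_not_dvd P.pp).mpr hpM
  refine ⟨M, dvd_mul_left M P.p, hpM, ?_⟩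
  obtain ⟨A, hA, -⟩ := Frob.exists_place_frobenius P.pp
  haveI := FrobDens.charP_residueField A P.pp hA
  letI : Algebra (ZMod P.p) (IsLocalRing.ResidueField A) := ZMod.algebra _ P.p
  haveI := TWGal.isAlgebraic_residueField (A := A) P.pp hA
  haveI := Curves.isFunctionField_fullC (IsLocalRing.ResidueField A) M
    (SSMod.cast_ne_zero_of_coprime (q := P.p) hcop)
  exact AtG.s44_aux P hpM hirr hmod hA
    (fun S hqS hSM Pol hPol v hv h => PicZ.op_eq_pow_p (MazurP.hasPrim_κ hqS) P.hp5 hA hpM hqS hSM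
      Pol hPol hv h)
    (fun b hb h1 h2 => FU.FU P hA habc hb h1 h2)

end Fermat.Agent.S44
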