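import Fermat.Statements.S22
import Fermat.Agent.EichlerShimura.Lattice

set_option autoImplicit false
open CuspForm

namespace Fermat.Agent.S22

theorem result (N : ℕ) [NeZero N] (k : ℤ) (S : Set ℕ) :
    Module.Finite ℤ (CuspForm.heckeAlgebra N k S) := by
  by_cases hk : 2 ≤ k
  · obtain ⟨m, rfl⟩ : ∃ m : ℕ, k = (m : ℤ) + 2 := ⟨(k - 2).toNat, by omega⟩
    exact Fermat.Agent.EichlerShimura.heckeAlgebra_finite N m S
  · have h0 : ∀ f : CuspForm (CongruenceSubgroup.Gamma0 N) k, f = 0 := by
      intro f
      rcases Nat.lt_or_ge 0 1 with _ | _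
      · by_cases hk1 : k = 1
        · subst hk1
          exact Fermat.Agent.EichlerShimura.cuspForm_eq_zero_of_odd odd_one f
        · exact Fermat.Agent.EichlerShimura.cuspForm_eq_zero_of_nonpos (by omega) f
      · omega
    have hsub : Subsingleton (CuspForm.heckeAlgebra N k S) := by
      refine ⟨fun a b => Subtype.ext (LinearMap.ext fun f => ?_)⟩
      rw [h0 f, map_zero, map_zero]
    infer_instance

end Fermat.Agent.S22
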