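import Fermat.Statements.S37
import Fermat.Agent.GoodRed.S37Core
import Fermat.Agent.Frob.Qbar

set_option autoImplicit false
open ModularCurve

namespace Fermat.Agent.S37

open AlgebraicCurve Fermat.Agent.Curves Fermat.Agent.GoodRed IsLocalRing
open scoped Pointwise

set_option synthInstance.maxHeartbeats 400000

local notation "Qbar" => AlgebraicClosure ℚ
local notation "GQ" => Qbar ≃ₐ[ℚ] Qbar

section Red

variable {N : ℕ} [NeZero N] {A : ValuationSubring Qbar} {M : ℕ}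
  [IsFunctionField (ResidueField A) (modularFunctionFieldFullC (ResidueField A) M)]
  (r : RedMap A N M)

theorem principal_R {ℓ : ℕ} (hℓ : ℓ.Prime) (hA : A.LiesOverPrime ℓ) (hN : ¬ ℓ ∣ N)
    {D : Divisor Qbar (modularFunctionFieldBar N)}
    (hD : D ∈ Divisor.principal (K := Qbar) (F := modularFunctionFieldBar N)) :
    r.R D ∈ Divisor.principal (K := ResidueField A)
      (F := modularFunctionFieldFullC (ResidueField A) M) := by
  obtain ⟨f, hf0, hf⟩ := hD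
  obtain ⟨g, gb, hg, hgb, hdiv, hLR⟩ := RedMap.exists_scale hℓ hA hN hf0
  have h1 : D = divisorOf f := by
    ext P
    exact hf P
  rw [h1, hdiv, r.spec' hLR hgb]
  exact ⟨_, (map_ne_zero _).mpr hgb, fun P => rfl⟩

/-- reduction of divisor classes -/
noncomputable def redHom {ℓ : ℕ} (hℓ : ℓ.Prime) (hA : A.LiesOverPrime ℓ) (hN : ¬ ℓ ∣ N) :
    JZero N →+
    (Divisor (ResidueField A) (modularFunctionFieldFullC (ResidueField A) M) ⧸
      Divisor.principal (K := ResidueField A)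
        (F := modularFunctionFieldFullC (ResidueField A) M)) :=
  QuotientAddGroup.lift _
    ((QuotientAddGroup.mk' (Divisor.principal (K := ResidueField A)
        (F := modularFunctionFieldFullC (ResidueField A) M))).comp
      (r.R.comp (Divisor.degZero (K := Qbar) (F := modularFunctionFieldBar N)).subtype)) (by
    intro D hD
    rw [AddSubgroup.mem_addSubgroupOf] at hD
    rw [AddMonoidHom.mem_ker, AddMonoidHom.comp_apply, QuotientAddGroup.mk'_apply,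
      QuotientAddGroup.eq_zero_iff]
    exact principal_R r hℓ hA hN hD)

theorem redHom_mk {ℓ : ℕ} (hℓ : ℓ.Prime) (hA : A.LiesOverPrime ℓ) (hN : ¬ ℓ ∣ N)
    (D : Divisor.degZero (K := Qbar) (F := modularFunctionFieldBar N)) :
    redHom r hℓ hA hN (Pic0.mk D) = QuotientAddGroup.mk (r.R D) := rfl

theorem redHom_inertia {ℓ : ℕ} (hℓ : ℓ.Prime) (hA : A.LiesOverPrime ℓ) (hN : ¬ ℓ ∣ N)
    {τ : GQ} (hτ : τ ∈ A.inertiaSubgroupIn ℚ) (x : JZero N) :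
    redHom r hℓ hA hN (τ • x) = redHom r hℓ hA hN x := by
  obtain ⟨D, rfl⟩ := Pic0.mk_surjective x
  rw [galois_smul_pic0_def, SemilinearAut.pic0_smul_mk, redHom_mk, redHom_mk]
  congr 1
  exact r.inertia hℓ hA hN hτ D.2

omit [NeZero N] in
theorem gal_mk (σ : GQ) (D : Divisor.degZero (K := Qbar) (F := modularFunctionFieldBar N)) :
    (σ • (Pic0.mk D : JZero N) : JZero N) =
      Pic0.mk ⟨gact N σ • (D : Divisor Qbar (modularFunctionFieldBar N)),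
        SemilinearAut.smul_mem_degZero _ D.2⟩ := rfl

theorem hecke_mk {ℓ : ℕ} [Fact ℓ.Prime] (hℓ : ℓ.Prime)
    (D : Divisor.degZero (K := Qbar) (F := modularFunctionFieldBar N)) :
    heckeOperatorBar N (⟨ℓ, hℓ⟩ : Nat.Primes) (Pic0.mk D) =
      Pic0.mk ⟨heckeDiv Qbar N ℓ (D : Divisor Qbar (modularFunctionFieldBar N)),
        heckeDiv_mem_degZero Qbar N ℓ D.2⟩ :=
  (heckeOperatorBar_apply N (⟨ℓ, hℓ⟩ : Nat.Primes) _).trans (heckeOperatorAlong_mk Qbar N ℓ D)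

theorem quot_rel {G : Type*} [AddCommGroup G] (S : AddSubgroup G) {a b c : G} {x y z : G ⧸ S}
    (hx : x = QuotientAddGroup.mk a) (hy : y = QuotientAddGroup.mk b)
    (hz : z = QuotientAddGroup.mk c) {l : ℕ} (h : a + l • c = b) : x - y + l • z = 0 := by
  subst hx hy hz h
  rw [QuotientAddGroup.mk_add, QuotientAddGroup.mk_nsmul]
  abel

theorem redHom_gal_gal {ℓ : ℕ} (hℓ : ℓ.Prime) (hA : A.LiesOverPrime ℓ) (hN : ¬ ℓ ∣ N)
    (σ : GQ) (D : Divisor.degZero (K := Qbar) (F := modularFunctionFieldBar N)) :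
    redHom r hℓ hA hN (σ • σ • (Pic0.mk D : JZero N)) =
      QuotientAddGroup.mk (r.R (gact N σ • gact N σ •
        (D : Divisor Qbar (modularFunctionFieldBar N)))) := rfl

theorem redHom_hecke_gal {ℓ : ℕ} [Fact ℓ.Prime] (hℓ : ℓ.Prime) (hA : A.LiesOverPrime ℓ)
    (hN : ¬ ℓ ∣ N) (σ : GQ) (D : Divisor.degZero (K := Qbar) (F := modularFunctionFieldBar N)) :
    redHom r hℓ hA hN (heckeOperatorBar N (⟨ℓ, hℓ⟩ : Nat.Primes) (σ • (Pic0.mk D : JZero N))) =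
      QuotientAddGroup.mk (r.R (heckeDiv Qbar N ℓ (gact N σ •
        (D : Divisor Qbar (modularFunctionFieldBar N))))) := by
  rw [gal_mk, hecke_mk hℓ]
  rfl

theorem redHom_es {ℓ : ℕ} (hℓ : ℓ.Prime) (hA : A.LiesOverPrime ℓ) (hN : ¬ ℓ ∣ N)
    {σ : GQ} (hσ : A.IsFrobeniusAt σ ℓ) (x : JZero N) :
    redHom r hℓ hA hN (σ • σ • x) -
      redHom r hℓ hA hN (heckeOperatorBar N (⟨ℓ, hℓ⟩ : Nat.Primes) (σ • x)) +
      ℓ • redHom r hℓ hA hN x = 0 := by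
  have : Fact ℓ.Prime := ⟨hℓ⟩
  obtain ⟨D, rfl⟩ := Pic0.mk_surjective x
  exact quot_rel _ (redHom_gal_gal r hℓ hA hN σ D) (redHom_hecke_gal r hℓ hA hN σ D)
    (redHom_mk r hℓ hA hN D) (r.es hA hN hσ D.2)

theorem redHom_inj {ℓ : ℕ} (hℓ : ℓ.Prime) (hA : A.LiesOverPrime ℓ) (hN : ¬ ℓ ∣ N)
    {m : ℕ} (hm : ¬ ℓ ∣ m) {x : JZero N} (hx : m • x = 0) (h0 : redHom r hℓ hA hN x = 0) :
    x = 0 := by
  obtain ⟨D, rfl⟩ := Pic0.mk_surjective x
  have h1 : (m • D : Divisor.degZero (K := Qbar) (F := modularFunctionFieldBar N)) ∈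
      (Divisor.principal (K := Qbar) (F := modularFunctionFieldBar N)).addSubgroupOf
        (Divisor.degZero (K := Qbar) (F := modularFunctionFieldBar N)) :=
    (QuotientAddGroup.eq_zero_iff _).1 hx
  rw [redHom_mk, QuotientAddGroup.eq_zero_iff] at h0
  rw [AddSubgroup.mem_addSubgroupOf] at h1
  have h2 := r.inj m (residue_ne_zero hℓ hA hm) D (by exact h1) h0
  refine (QuotientAddGroup.eq_zero_iff _).2 ?_
  rw [AddSubgroup.mem_addSubgroupOf]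
  exact h2

end Red

theorem conj_mem_inertia (A : ValuationSubring Qbar) {σ τ : GQ} (hσ : σ ∈ A.decompositionSubgroup ℚ)
    (hτ : τ ∈ A.inertiaSubgroupIn ℚ) : σ * τ * σ⁻¹ ∈ A.inertiaSubgroupIn ℚ := by
  obtain ⟨τ', hτ', rfl⟩ := hτ
  refine ⟨⟨σ, hσ⟩ * τ' * ⟨σ, hσ⟩⁻¹, ?_, rfl⟩
  have : (A.inertiaSubgroup ℚ).Normal := MonoidHom.normal_ker _
  exact this.conj_mem τ' hτ' ⟨σ, hσ⟩

theorem frob_mul_inertia {A : ValuationSubring Qbar} {ℓ : ℕ} {σ₀ σ : GQ}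
    (h₀ : A.IsFrobeniusAt σ₀ ℓ) (h : A.IsFrobeniusAt σ ℓ) :
    ∃ τ ∈ A.inertiaSubgroupIn ℚ, σ = σ₀ * τ := by
  obtain ⟨hd₀, h₀'⟩ := h₀
  obtain ⟨hd, h'⟩ := h
  refine ⟨σ₀⁻¹ * σ, ⟨⟨σ₀, hd₀⟩⁻¹ * ⟨σ, hd⟩, ?_, rfl⟩, by rw [mul_inv_cancel_left]⟩
  change _ ∈ MonoidHom.ker _
  rw [MonoidHom.mem_ker]
  ext x : 1
  change ((⟨σ₀, hd₀⟩ : A.decompositionSubgroup ℚ)⁻¹ * ⟨σ, hd⟩) • x = x
  rw [mul_smul, inv_smul_eq_iff, h₀', h']

theorem result (N p : ℕ) [NeZero N] (hcomm : ModularCurve.HeckeOperatorsCommuteBar N) : letI := ModularCurve.heckeModuleBar N; ∀ (_ : SMulCommClass (AlgebraicClosure ℚ ≃ₐ[ℚ] AlgebraicClosure ℚ) ModularCurve.HeckeAlg (ModularCurve.JZero N)), ModularCurve.SpecializationExists (K := ℚ) (L := AlgebraicClosure ℚ) N p (ModularCurve.JZero N) := by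
  letI := ModularCurve.heckeModuleBar N
  intro hsc ℓ hℓ hNp A hA
  have hN : ¬ ℓ ∣ N := fun h => hNp (h.mul_right p)
  have hp : ∀ n : ℕ, ¬ ℓ ∣ p ^ n := fun n h => hNp ((hℓ.dvd_of_dvd_pow h).mul_left N)
  obtain ⟨M, hM, ⟨r⟩⟩ := exists_redMap hℓ hA hN
  obtain ⟨σ₀, hσ₀⟩ := Frob.exists_isFrobeniusAt_Qbar A hℓ hA
  obtain ⟨K, F, h1, h2, h3, h4⟩ := spec_abstract (G := GQ) (H := HeckeAlg) (J := JZero N)
    (redHom r hℓ hA hN) (A.inertiaSubgroupIn ℚ) σ₀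
    (fun τ hτ => conj_mem_inertia A hσ₀.mem_decompositionSubgroup hτ)
    (fun τ hτ x => redHom_inertia r hℓ hA hN hτ x) (heckeGen ⟨ℓ, hℓ⟩) ℓ
    (fun x => by
      rw [heckeModuleBar_heckeGen_smul hcomm ⟨ℓ, hℓ⟩ (σ₀ • x)]
      exact redHom_es r hℓ hA hN hσ₀ x)
    (fun x => ∃ n : ℕ, p ^ n • x = 0)
    (fun x ⟨n, hn⟩ h0 => redHom_inj r hℓ hA hN (hp n) hn h0)
  refine ⟨JZero N ⧸ K, inferInstance, inferInstance, K.mkQ.toAddMonoidHom, F, ?_, ?_⟩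
  · refine ⟨fun T x => K.mkQ.map_smul T x, h1, ?_, h3⟩
    intro σ hσ x
    obtain ⟨τ, hτ, rfl⟩ := frob_mul_inertia hσ₀ hσ
    exact h2 τ hτ x
  · exact h4

end Fermat.Agent.S37
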