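import Fermat.Statements.S13
import Fermat.Agent.ECRed.Cofixed

set_option autoImplicit false
open WeierstrassCurve WeierstrassCurve.Affine WeierstrassCurve.Affine.Point
open CuspForm ModularFormClass UpperHalfPlane
open FreyPackage

namespace Fermat.Agent.S13

theorem result (P : FreyPackage) (hred : ¬ GaloisRepIsIrreducible (K := AlgebraicClosure ℚ) ℚ P.freyCurve P.p) : HasGaloisStableCofixedLine (K := AlgebraicClosure ℚ) ℚ P.freyCurve P.p := by
  have h1 : @Algebra.IsAlgebraic ℚ (AlgebraicClosure ℚ) _ _ (AlgebraicClosure.instAlgebra ℚ) :=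
    AlgebraicClosure.isAlgebraic ℚ
  have h0 : CharZero (AlgebraicClosure ℚ) := inferInstance
  have h2 : IsAlgClosed (AlgebraicClosure ℚ) := inferInstance
  have h4 : @IsAlgClosure ℚ (AlgebraicClosure ℚ) _ _ (AlgebraicClosure.instAlgebra ℚ) _ :=
    ⟨h2, h1⟩
  have h3 : @IsGalois ℚ _ (AlgebraicClosure ℚ) _ (AlgebraicClosure.instAlgebra ℚ) :=
    @IsAlgClosure.isGalois ℚ (AlgebraicClosure ℚ) _ _ (AlgebraicClosure.instAlgebra ℚ) h4 _
  exact @Fermat.Agent.ECRed.Frey.frey_cofixed P (AlgebraicClosure ℚ) _ _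
    (AlgebraicClosure.instAlgebra ℚ) h1 h0 h2 h3 hred

end Fermat.Agent.S13
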