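import Fermat.Statements.S57
import Fermat.Agent.Patching.FreeOfRegular
import Fermat.Agent.Patching.PowerSeriesRegular

set_option autoImplicit false
open Algebra Algebra.PatchingLevel

namespace Fermat.Agent.S57

theorem result
    {𝒪 : Type} [CommRing 𝒪] [IsDomain 𝒪] [IsDiscreteValuationRing 𝒪]
    {r : ℕ} {R : Type} [CommRing R] [Algebra 𝒪 R]
    {M : Type} [AddCommGroup M] [Module R M] [Nontrivial M]
    (L : Algebra.PatchingLevel 𝒪 r R M ⊥) :
    Module.Free R M ∧ Module.annihilator R M = ⊥ ∧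
      RingHom.ker L.ψ = Ideal.span (Set.range fun i : Fin r => L.φ (MvPowerSeries.X i)) := by
  classical
  obtain ⟨ϖ, hϖ⟩ := IsDiscreteValuationRing.exists_irreducible 𝒪
  have hmax : IsLocalRing.maximalIdeal 𝒪 = Ideal.span {ϖ} :=
    Irreducible.maximalIdeal_eq hϖ
  have hϖ0 : ϖ ≠ 0 := hϖ.ne_zero
  -- R is nontrivial
  have hR : Nontrivial R := by
    by_contra h
    rw [not_nontrivial_iff_subsingleton] at h
    obtain ⟨m, hm⟩ := exists_ne (0 : M)
    apply hm
    rw [← one_smul R m, Subsingleton.elim (1 : R) 0, zero_smul]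
  have hkerle : RingHom.ker L.ψ ≤ IsLocalRing.maximalIdeal (MvPowerSeries (Fin r) 𝒪) := by
    apply IsLocalRing.le_maximalIdeal
    exact RingHom.ker_ne_top _
  -- the ideal of the images of the variables
  have h𝔞le : Ideal.span (Set.range fun i : Fin r => L.φ (MvPowerSeries.X i)) ≤
      RingHom.ker L.ψ := by
    rw [Ideal.span_le]
    rintro _ ⟨i, rfl⟩
    exact L.ψ_φ_X i
  -- the additive equivalence
  let f : (Fin L.d → (MvPowerSeries (Fin r) 𝒪)) →+ L.N :=
    { toFun := fun c => ∑ i, L.φ (c i) • L.b i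
      map_zero' := by simp
      map_add' := fun c c' => by
        simp only [Pi.add_apply, map_add, add_smul, Finset.sum_add_distrib] }
  have hfapp : ∀ c, f c = ∑ i, L.φ (c i) • L.b i := fun c => rfl
  have hfinj : Function.Injective f := by
    rw [injective_iff_map_eq_zero]
    intro c hc
    rw [hfapp] at hc
    funext i
    have := (L.b_rel c).mp hc i
    rwa [Ideal.mem_bot] at this
  have hfsurj : Function.Surjective f := by
    intro x
    obtain ⟨c, hc⟩ := L.b_span x
    exact ⟨c, hc.symm⟩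
  let e : (Fin L.d → (MvPowerSeries (Fin r) 𝒪)) ≃+ L.N :=
    AddEquiv.ofBijective f ⟨hfinj, hfsurj⟩
  have he : ∀ c, e c = ∑ i, L.φ (c i) • L.b i := fun c => rfl
  have hesmul : ∀ (a : (MvPowerSeries (Fin r) 𝒪)) (c : Fin L.d → (MvPowerSeries (Fin r) 𝒪)),
      e (a • c) = L.φ a • e c := by
    intro a c
    rw [he, he, Finset.smul_sum]
    refine Finset.sum_congr rfl fun i _ => ?_
    rw [Pi.smul_apply, smul_eq_mul, map_mul, mul_smul]
  -- N is nontrivial and finite
  have hNnt : Nontrivial L.N := by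
    obtain ⟨m, hm⟩ := exists_ne (0 : M)
    obtain ⟨x, hx⟩ := L.π_surjective m
    refine ⟨x, 0, fun h => hm ?_⟩
    rw [← hx, h, map_zero]
  have hNfin : Module.Finite (MvPowerSeries (Fin r) 𝒪) L.N := by
    refine ⟨⟨Finset.univ.image L.b, ?_⟩⟩
    rw [_root_.eq_top_iff]
    intro x _
    obtain ⟨c, hc⟩ := L.b_span x
    rw [hc]
    refine Submodule.sum_mem _ fun i _ => Submodule.smul_mem _ _ (Submodule.subset_span ?_)
    simp
  -- regular sequence
  obtain ⟨rs, hrs⟩ : ∃ rs : List (MvPowerSeries (Fin r) 𝒪),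
      rs = List.ofFn (fun i : Fin r => (MvPowerSeries.X i : (MvPowerSeries (Fin r) 𝒪))) ++
        [MvPowerSeries.C ϖ] := ⟨_, rfl⟩
  have hreg1 : RingTheory.Sequence.IsWeaklyRegular (MvPowerSeries (Fin r) 𝒪) rs := by
    rw [hrs]
    exact Fermat.Agent.Patching.isWeaklyRegular_X_C ϖ hϖ0 r
  have hreg2 : RingTheory.Sequence.IsWeaklyRegular
      (Fin L.d → (MvPowerSeries (Fin r) 𝒪)) rs :=
    ((TensorProduct.rid (MvPowerSeries (Fin r) 𝒪)
      (Fin L.d → (MvPowerSeries (Fin r) 𝒪))).isWeaklyRegular_congr rs).mp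
      (hreg1.isWeaklyRegular_lTensor (M₂ := Fin L.d → (MvPowerSeries (Fin r) 𝒪)))
  have hreg3 : RingTheory.Sequence.IsWeaklyRegular L.N (rs.map L.φ) := by
    refine (AddEquiv.isWeaklyRegular_congr (e := e) ?_).mp hreg2
    rw [List.forall₂_map_right_iff]
    exact List.forall₂_same.mpr fun a _ c => hesmul a c
  have hmem : ∀ y ∈ rs.map L.φ, y ∈ IsLocalRing.maximalIdeal (MvPowerSeries (Fin r) 𝒪) := by
    intro y hy
    obtain ⟨x, hx, rfl⟩ := List.mem_map.mp hy
    rw [hrs, List.mem_append, List.mem_ofFn] at hx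
    rcases hx with ⟨i, rfl⟩ | hx
    · exact hkerle (L.ψ_φ_X i)
    · rw [List.mem_singleton] at hx
      subst hx
      have : L.φ (MvPowerSeries.C ϖ) = MvPowerSeries.C ϖ := by
        have := L.φ.commutes ϖ
        simpa [MvPowerSeries.algebraMap_apply] using this
      rw [this, Fermat.Agent.Patching.mem_maximalIdeal_iff, MvPowerSeries.constantCoeff_C, hmax]
      exact Ideal.mem_span_singleton_self ϖ
  have hfree : Module.Free (MvPowerSeries (Fin r) 𝒪) L.N := by
    refine Fermat.Agent.Patching.free_of_isRegular (r + 1) (MvPowerSeries (Fin r) 𝒪) _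
      (Fermat.Agent.Patching.maximalIdeal_mvPowerSeries r ϖ hmax) L.N (rs.map L.φ) ?_ hmem ?_
    · simp [hrs]
    · exact RingTheory.Sequence.IsRegular.of_isWeaklyRegular_of_mem_maximalIdeal _ hmem hreg3
  -- basis
  let B := Module.finBasis (MvPowerSeries (Fin r) 𝒪) L.N
  obtain ⟨i0⟩ := B.index_nonempty
  have hcoord : ∀ (x : L.N), x ∈ Ideal.span (Set.range fun i : Fin r =>
      L.φ (MvPowerSeries.X i)) • (⊤ : Submodule (MvPowerSeries (Fin r) 𝒪) L.N) →
      ∀ i, B.repr x i ∈ Ideal.span (Set.range fun i : Fin r => L.φ (MvPowerSeries.X i)) := by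
    intro x hx i
    refine Submodule.smul_induction_on hx ?_ ?_
    · intro a ha n _
      rw [map_smul, Finsupp.smul_apply, smul_eq_mul]
      exact Ideal.mul_mem_right _ _ ha
    · intro x y hx hy
      rw [map_add, Finsupp.add_apply]
      exact add_mem hx hy
  have hker : ∀ s : (MvPowerSeries (Fin r) 𝒪), L.ψ s = 0 →
      s ∈ Ideal.span (Set.range fun i : Fin r => L.φ (MvPowerSeries.X i)) := by
    intro s hs
    have h1 : L.π (s • B i0) = 0 := by rw [L.π_smul, hs, zero_smul]
    have h2 := (L.ker_π _).mp h1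
    have h3 := hcoord _ h2 i0
    simpa using h3
  have hkereq : RingHom.ker L.ψ =
      Ideal.span (Set.range fun i : Fin r => L.φ (MvPowerSeries.X i)) :=
    le_antisymm (fun s hs => hker s hs) h𝔞le
  have hli : LinearIndependent R (fun i => L.π (B i)) := by
    rw [Fintype.linearIndependent_iff]
    intro g hg i
    choose s hs using fun i => L.ψ_surjective (g i)
    have h1 : L.π (∑ i, s i • B i) = 0 := by
      rw [map_sum, ← hg]
      refine Finset.sum_congr rfl fun i _ => ?_
      rw [L.π_smul, hs]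
    have h2 := hcoord _ ((L.ker_π _).mp h1) i
    have h3 : B.repr (∑ i, s i • B i) i = s i := by
      rw [map_sum, Finsupp.finsetSum_apply]
      simp [Finsupp.single_apply]
    rw [h3] at h2
    rw [← hs i]
    exact h𝔞le h2
  have hspan : ⊤ ≤ Submodule.span R (Set.range (fun i => L.π (B i))) := by
    intro m _
    obtain ⟨n, rfl⟩ := L.π_surjective m
    rw [← B.sum_repr n, map_sum]
    refine Submodule.sum_mem _ fun i _ => ?_
    rw [L.π_smul]
    exact Submodule.smul_mem _ _ (Submodule.subset_span ⟨i, rfl⟩)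
  refine ⟨Module.Free.of_basis (Module.Basis.mk hli hspan), ?_, hkereq⟩
  rw [eq_bot_iff]
  intro a ha
  rw [Module.mem_annihilator] at ha
  rw [Ideal.mem_bot]
  have h1 := Fintype.linearIndependent_iff.mp hli (fun i => if i = i0 then a else 0) ?_
    i0
  · simpa using h1
  · simp [ha]

end Fermat.Agent.S57
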