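import Fermat.Statements.S02

set_option autoImplicit false
open FreyPackage

namespace Fermat.Agent.S02

private lemma aux_even {a b c : ℤ} (ha : a ≠ 0) (hb : b ≠ 0) (hc : c ≠ 0) {p : ℕ} (pp : p.Prime)
    (hp5 : 5 ≤ p) (H : a ^ p + b ^ p = c ^ p) (hg : gcd a b = 1) (hb2 : (b : ZMod 2) = 0) :
    Nonempty FreyPackage := by
  have hodd : Odd p := pp.odd_of_ne_two (by omega)
  have h2b : (2 : ℤ) ∣ b := (ZMod.intCast_zmod_eq_zero_iff_dvd b 2).1 hb2
  have h2a : ¬ (2 : ℤ) ∣ a := by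
    intro h
    have h3 : (2 : ℤ) ∣ gcd a b := dvd_gcd h h2b
    rw [hg] at h3
    norm_num at h3
  have h4 : a % 4 = 1 ∨ a % 4 = 3 := by omega
  rcases h4 with h4 | h4
  · refine ⟨⟨-a, -b, -c, neg_ne_zero.2 ha, neg_ne_zero.2 hb, neg_ne_zero.2 hc, p, pp, hp5, ?_, ?_, ?_, ?_⟩⟩
    · rw [hodd.neg_pow, hodd.neg_pow, hodd.neg_pow, ← H]; ring
    · have h1 : gcd (-a) (-b) = gcd a b := by
        change ((Int.gcd (-a) (-b) : ℕ) : ℤ) = ((Int.gcd a b : ℕ) : ℤ)
        rw [Int.neg_gcd, Int.gcd_neg]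
      rw [h1, hg]
    · have h5 : (-a) % 4 = 3 := by omega
      have h6 : ((-a : ℤ) : ZMod 4) = ((3 : ℤ) : ZMod 4) := by
        rw [ZMod.intCast_eq_intCast_iff]
        exact h5
      simpa using h6
    · push_cast
      rw [hb2, neg_zero]
  · refine ⟨⟨a, b, c, ha, hb, hc, p, pp, hp5, H, hg, ?_, hb2⟩⟩
    have h6 : ((a : ℤ) : ZMod 4) = ((3 : ℤ) : ZMod 4) := by
      rw [ZMod.intCast_eq_intCast_iff]
      exact h4
    simpa using h6

private lemma aux_coprime {a b c : ℤ} (ha : a ≠ 0) (hb : b ≠ 0) (hc : c ≠ 0) {p : ℕ} (pp : p.Prime)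
    (hp5 : 5 ≤ p) (H : a ^ p + b ^ p = c ^ p) (hg : gcd a b = 1) :
    Nonempty FreyPackage := by
  have hodd : Odd p := pp.odd_of_ne_two (by omega)
  by_cases hb2 : (b : ZMod 2) = 0
  · exact aux_even ha hb hc pp hp5 H hg hb2
  by_cases ha2 : (a : ZMod 2) = 0
  · exact aux_even hb ha hc pp hp5 (by rw [← H]; ring) (by rw [gcd_comm]; exact hg) ha2
  have hgac : gcd a c = 1 := by rw [← gcdab_eq_gcdac pp.pos H, hg]
  have hc2 : (c : ZMod 2) = 0 := by
    have key : ∀ x : ZMod 2, x ≠ 0 → x = 1 := by decide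
    have hb1 := key _ hb2
    have ha1 := key _ ha2
    have h := congrArg (fun x : ℤ => (x : ZMod 2)) H
    simp only [Int.cast_add, Int.cast_pow, hb1, ha1, one_pow] at h
    have h2 : (1 : ZMod 2) + 1 = 0 := by decide
    rw [h2] at h
    exact pow_eq_zero_iff pp.ne_zero |>.1 h.symm
  refine aux_even (a := a) (b := -c) (c := -b) ha (neg_ne_zero.2 hc) (neg_ne_zero.2 hb) pp hp5 ?_ ?_ ?_
  · rw [hodd.neg_pow, hodd.neg_pow, ← H]; ring
  · change ((Int.gcd a (-c) : ℕ) : ℤ) = 1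
    rw [Int.gcd_neg]
    exact hgac
  · push_cast
    rw [hc2, neg_zero]

theorem result (a b c : ℤ) (ha : a ≠ 0) (hb : b ≠ 0) (hc : c ≠ 0) (p : ℕ) (pp : p.Prime) (hp5 : 5 ≤ p) (H : a ^ p + b ^ p = c ^ p) : Nonempty FreyPackage := by
  obtain ⟨a', ha'⟩ : gcd a b ∣ a := gcd_dvd_left a b
  obtain ⟨b', hb'⟩ : gcd a b ∣ b := gcd_dvd_right a b
  have hg0 : gcd a b ≠ 0 := fun h => ha ((gcd_eq_zero_iff a b).1 h).1
  have hgc : gcd a b ∣ c := by
    rw [← Int.pow_dvd_pow_iff pp.ne_zero, ← H]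
    exact dvd_add (pow_dvd_pow_of_dvd (gcd_dvd_left a b) p) (pow_dvd_pow_of_dvd (gcd_dvd_right a b) p)
  obtain ⟨c', hc'⟩ := hgc
  set d := gcd a b with hd
  have hco : gcd a' b' = 1 := by
    have h1 : d = normalize d * gcd a' b' := by
      conv_lhs => rw [hd, ha', hb']
      rw [gcd_mul_left]
    have h2 : normalize d = d := by rw [hd]; exact normalize_gcd a b
    rw [h2] at h1
    have h3 : d * 1 = d * gcd a' b' := by rw [mul_one]; exact h1
    exact (mul_left_cancel₀ hg0 h3).symm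
  refine aux_coprime (a := a') (b := b') (c := c') ?_ ?_ ?_ pp hp5 ?_ hco
  · rintro rfl; exact ha (by rw [ha', mul_zero])
  · rintro rfl; exact hb (by rw [hb', mul_zero])
  · rintro rfl; exact hc (by rw [hc', mul_zero])
  · have h1 : d ^ p * (a' ^ p + b' ^ p) = d ^ p * c' ^ p := by
      calc d ^ p * (a' ^ p + b' ^ p) = (d * a') ^ p + (d * b') ^ p := by ring
        _ = a ^ p + b ^ p := by rw [← ha', ← hb']
        _ = c ^ p := H
        _ = (d * c') ^ p := by rw [← hc']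
        _ = d ^ p * c' ^ p := by ring
    exact mul_left_cancel₀ (pow_ne_zero p hg0) h1

end Fermat.Agent.S02
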