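import Fermat.Statements.S05
import Fermat.Agent.ECRed.Frey

set_option autoImplicit false
open WeierstrassCurve WeierstrassCurve.Affine WeierstrassCurve.Affine.Point
open CuspForm ModularFormClass UpperHalfPlane
open FreyPackage

namespace Fermat.Agent.S05

theorem result (P : FreyPackage) {q : ℕ} (hq : q.Prime) (hq2 : q ≠ 2) (hqp : q ≠ P.p) : P.GaloisRepUnramifiedAt q := by
  have : @Algebra.IsAlgebraic ℚ (AlgebraicClosure ℚ) _ _ (AlgebraicClosure.instAlgebra ℚ) :=
    AlgebraicClosure.isAlgebraic ℚ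
  have h0 : CharZero (AlgebraicClosure ℚ) := inferInstance
  exact @Fermat.Agent.ECRed.Frey.frey_unram P (AlgebraicClosure ℚ) _ _
    (AlgebraicClosure.instAlgebra ℚ) h0 this q hq hq2 hqp

end Fermat.Agent.S05
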