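import Fermat.Statements.S18
import Fermat.Agent.GoodRed.S18Core

set_option autoImplicit false
open ModularCurve

namespace Fermat.Agent.S18

open AlgebraicCurve

theorem natCast_ne_zero_of_not_dvd {A : ValuationSubring (AlgebraicClosure ℚ)} {ℓ : ℕ}
    (hℓ : ℓ.Prime) (hA : A.LiesOverPrime ℓ) {m : ℕ} (hm : ¬ ℓ ∣ m) :
    (m : IsLocalRing.ResidueField A) ≠ 0 := by
  have h1 : (ℓ : IsLocalRing.ResidueField A) = 0 := by
    have h2 : (ℓ : A) ∈ IsLocalRing.maximalIdeal A := by
      refine (A.valuation_lt_one_iff _).2 ?_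
      have : A.valuation (ℓ : AlgebraicClosure ℚ) < 1 := (A.mem_nonunits_iff).1 hA
      simpa using this
    have h3 := (IsLocalRing.residue_eq_zero_iff (ℓ : A)).2 h2
    rwa [map_natCast] at h3
  have hco : Nat.Coprime ℓ m := (Nat.Prime.coprime_iff_not_dvd hℓ).2 hm
  intro h0
  have h2 := Nat.gcd_eq_gcd_ab ℓ m
  rw [hco] at h2
  have h3 := congrArg (Int.cast : ℤ → IsLocalRing.ResidueField A) h2
  push_cast at h3
  rw [h1, h0, zero_mul, zero_mul, add_zero] at h3
  exact one_ne_zero h3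

/-- embeddings of an algebraic closure -/
theorem exists_emb (K M : Type*) [Field K] [Field M] [IsAlgClosed M] [Algebra K M] :
    Nonempty (AlgebraicClosure K →+* M) :=
  ⟨(IsAlgClosed.lift (R := K) (S := AlgebraicClosure K) (M := M)).toRingHom⟩

theorem isAlgebraic_int (K : Type*) [Field K] [Algebra ℚ K] (h : Algebra.IsAlgebraic ℚ K) :
    Algebra.IsAlgebraic ℤ K :=
  ⟨fun x => (IsFractionRing.isAlgebraic_iff ℤ ℚ K).mpr (h.isAlgebraic x)⟩

set_option synthInstance.maxHeartbeats 400000 in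
theorem result (N : ℕ) [NeZero N] {ℓ : ℕ}
    [Fact ℓ.Prime] (hℓN : ¬ ℓ ∣ N) (A : ValuationSubring (AlgebraicClosure ℚ)) (hA : A.LiesOverPrime ℓ)
    (h : ModularCurve.ReductionInputsModL A N) (m : ℕ) (hm : ¬ ℓ ∣ m) (z : ModularCurve.JZero N)
    (hmz : m • z = 0) (hz : ModularCurve.reductionModL A N z = 0) :
    z = 0 := by
  have hℓ : ℓ.Prime := Fact.out
  obtain ⟨D, rfl⟩ := Pic0.mk_surjective z
  rw [reductionModL_mk h D] at hz
  have := Fermat.Agent.Curves.isFunctionField_bar N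
  have := isAlgebraic_int (AlgebraicClosure ℚ) (AlgebraicClosure.isAlgebraic ℚ)
  have h1 : (m • D : Divisor.degZero (K := AlgebraicClosure ℚ) (F := modularFunctionFieldBar N)) ∈
      (Divisor.principal (K := AlgebraicClosure ℚ) (F := modularFunctionFieldBar N)).addSubgroupOf
        (Divisor.degZero (K := AlgebraicClosure ℚ) (F := modularFunctionFieldBar N)) :=
    (QuotientAddGroup.eq_zero_iff _).1 hmz
  have h2 := (QuotientAddGroup.eq_zero_iff _).1 hz
  rw [AddSubgroup.mem_addSubgroupOf] at h1 h2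
  obtain ⟨u, hu0, hu⟩ := h1
  obtain ⟨g, hg0, hg⟩ := h2
  obtain ⟨ι⟩ : Nonempty (AlgebraicClosure ℚ →+* ℂ) := exists_emb ℚ ℂ
  obtain ⟨w, hw0, hw⟩ := Fermat.Agent.GoodRed.core_aux (IsLocalRing.residue A) N ι
    IsLocalRing.residue_surjective (natCast_ne_zero_of_not_dvd hℓ hA hℓN)
    (Fermat.Agent.GoodRed.rankOne_of_liesOver hℓ hA) (natCast_ne_zero_of_not_dvd hℓ hA hm)
    (modularFunctionFieldBar N) (Fermat.Agent.Curves.laurentBaseChange_eq _ N)
    (placeReductionModL h) (isPlaceReductionModL_placeReductionModL h).2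
    (D : Divisor (AlgebraicClosure ℚ) (modularFunctionFieldBar N)) hu0
    (fun P => by
      have := hu P
      rw [← this, AddSubgroupClass.coe_nsmul, Finsupp.smul_apply, nsmul_eq_mul]) hg0 hg
  refine (QuotientAddGroup.eq_zero_iff _).2 ?_
  rw [AddSubgroup.mem_addSubgroupOf]
  exact ⟨w, hw0, hw⟩

end Fermat.Agent.S18
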