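import Fermat.Statements.S27
import Fermat.Agent.TorP4.Count
import Fermat.Agent.TorP4.Small
import Fermat.Agent.Tor27.Torus
import Fermat.Agent.Tor27.G7
import Fermat.Agent.Tor27.FF

set_option autoImplicit false
set_option autoImplicit false
open AlgebraicCurve
open AlgebraicCurve AlgebraicCurve.Pic0

namespace Fermat.Agent.S27

theorem result
    (K F : Type*) [Field K] [Field F] [Algebra K F] [IsAlgClosed K] [CharZero K]
    [IsCurveOver K F] [Algebra.EssFiniteType K F]
    (ℓ : ℕ) [Fact ℓ.Prime] (k : ℕ) :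
    Nat.card (Pic0.torsion K F (ℓ ^ k)) = ℓ ^ (2 * genusFF K F * k) := by
  haveI : Fermat.Agent.Curves.IsFunctionField K F :=
    Fermat.Agent.Tor27.isFunctionField_of_isCurveOver K F
  obtain ⟨g, c, hRR⟩ := Fermat.Agent.PicFlat.exists_RR (k := K) (F := F)
  have hg := Fermat.Agent.Tor27.RR.genusFF_eq hRR
  have hℓ : 1 ≤ ℓ ^ k := Nat.one_le_pow _ _ (Fact.out : ℓ.Prime).pos
  have h1 := Fermat.Agent.TorP4.card_torsion_of (K := K) (F := F) Fermat.Agent.Tor27.torusSt
    (fun A hA => Fermat.Agent.TorP4.exists_small K A hA) hRR hℓ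
  have h2 : Nat.card (Pic0.torsion K F (ℓ ^ k)) =
      Nat.card {x : Pic0 K F // (ℓ ^ k) • x = 0} := by
    refine Nat.card_congr (Equiv.subtypeEquivRight fun x => ?_)
    rw [Pic0.mem_torsion, natCast_zsmul]
  have h3 : (2 * g).toNat = 2 * genusFF K F := by
    rw [← hg]
    omega
  rw [h2, h1, h3, ← pow_mul, mul_comm k]

end Fermat.Agent.S27
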