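import Fermat.Statements.S28
import Fermat.Agent.ModFun.IgusaTensor
import Fermat.Agent.ModFun.SchemeGen

set_option autoImplicit false
open AlgebraicGeometry CategoryTheory CategoryTheory.Limits ModularCurve ModularCurve.IgusaScheme
noncomputable section
set_option autoImplicit false
open ModularCurve ModularCurve.IgusaScheme

namespace Fermat.Agent.S28

open Fermat.Agent.ModFun
open scoped TensorProduct

theorem mid_mem_VV (N : ℕ) [NeZero N] (ℓ : ℕ) [hl : Fact ℓ.Prime]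
    (x : modularFunctionFieldFull N) (hx : x ∈ chartAlgMid N ℓ) :
    (x : LaurentSeries ℚ) ∈ VV ℓ := by
  have hx' : x ∈ chartAlg N ℓ (insert (jFull N)⁻¹ {jFull N}) := by
    rw [show insert (jFull N)⁻¹ ({jFull N} : Set (modularFunctionFieldFull N)) =
      {jFull N, (jFull N)⁻¹} from Set.pair_comm _ _]
    exact hx
  obtain ⟨n, hn⟩ := exists_pow_mul_mem_chartAlg (Set.mem_singleton _) (jFull_ne_zero N) hx'
  have h1 : ((jFull N ^ n * x : modularFunctionFieldFull N) : LaurentSeries ℚ) ∈ VV ℓ :=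
    chart_mem_VV ℓ N .fin hn
  have h2 : (((jFull N)⁻¹ : modularFunctionFieldFull N) : LaurentSeries ℚ) ∈ VV ℓ :=
    chart_mem_VV ℓ N .inf (subset_chartAlg N ℓ _ rfl)
  have h3 : x = ((jFull N)⁻¹) ^ n * (jFull N ^ n * x) := by
    rw [← mul_assoc, ← mul_pow, inv_mul_cancel₀ (jFull_ne_zero N), one_pow, one_mul]
  rw [h3]
  exact (VV ℓ).mul_mem ((VV ℓ).pow_mem h2 n) h1

section

variable (N : ℕ) [NeZero N] (ℓ : ℕ) [hl : Fact ℓ.Prime] (hℓN : ¬ ℓ ∣ N)
  (K : Type) [Field K] [CharP K ℓ] [Algebra ↥(GaloisRep.ratLocalizedAt ℓ) K]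

/-- The base map. -/
abbrev gK : Spec (CommRingCat.of K) ⟶ Spec (CommRingCat.of ↥(GaloisRep.ratLocalizedAt ℓ)) :=
  Spec.map (CommRingCat.ofHom (algebraMap ↥(GaloisRep.ratLocalizedAt ℓ) K))

include hℓN in
theorem integral_fin : IsIntegral ↑(pullback (ιFin N ℓ ≫ igusaTo N ℓ) (gK ℓ K)) := by
  have hd : IsDomain (chartAlgFin N ℓ ⊗[↥(GaloisRep.ratLocalizedAt ℓ)] K) :=
    isDomain_chart ℓ hℓN .fin K
  rw [ιFin_igusaTo]
  exact IsIntegral.of_isIso (pullbackSpecIso (↥(GaloisRep.ratLocalizedAt ℓ)) (chartAlgFin N ℓ) K).inv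

include hℓN in
theorem integral_inf : IsIntegral ↑(pullback (ιInf N ℓ ≫ igusaTo N ℓ) (gK ℓ K)) := by
  have hd : IsDomain (chartAlgInf N ℓ ⊗[↥(GaloisRep.ratLocalizedAt ℓ)] K) :=
    isDomain_chart ℓ hℓN .inf K
  rw [ιInf_igusaTo]
  exact IsIntegral.of_isIso (pullbackSpecIso (↥(GaloisRep.ratLocalizedAt ℓ)) (chartAlgInf N ℓ) K).inv

/-- a point of the special fibre -/
def ptK : Spec (CommRingCat.of (LaurentSeries K)) ⟶ pullback (igusaTo N ℓ) (gK ℓ K) :=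
  pullback.lift
    (Spec.map (CommRingCat.ofHom (psi K (mid_mem_VV N ℓ))) ≫ fFin N ℓ ≫ ιFin N ℓ)
    (Spec.map (CommRingCat.ofHom (HahnSeries.C : K →+* LaurentSeries K)))
    (by
      rw [Category.assoc, Category.assoc, ιFin_igusaTo, ← Spec.map_comp, ← Spec.map_comp,
        ← Spec.map_comp, ← CommRingCat.ofHom_comp, ← CommRingCat.ofHom_comp, ← CommRingCat.ofHom_comp]
      congr 2
      apply RingHom.ext
      intro a
      exact psi_algebraMap K (chartAlgMid N ℓ) (mid_mem_VV N ℓ) a)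

theorem ptK_fst : ptK N ℓ K ≫ pullback.fst (igusaTo N ℓ) (gK ℓ K) =
    Spec.map (CommRingCat.ofHom (psi K (mid_mem_VV N ℓ))) ≫ fFin N ℓ ≫ ιFin N ℓ :=
  pullback.lift_fst _ _ _

end

set_option maxHeartbeats 4000000 in
set_option synthInstance.maxHeartbeats 400000 in
theorem result
    (N : ℕ) [NeZero N] (ℓ : ℕ) [Fact ℓ.Prime] (hℓN : ¬ ℓ ∣ N)
    (K : Type) [Field K] [CharP K ℓ] [Algebra ↥(GaloisRep.ratLocalizedAt ℓ) K] :
    IsIntegral ↑(pullback (igusaTo N ℓ)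
      (Spec.map (CommRingCat.ofHom (algebraMap ↥(GaloisRep.ratLocalizedAt ℓ) K)))) := by
  have h1 := integral_fin N ℓ hℓN K
  have h2 := integral_inf N ℓ hℓN K
  obtain ⟨f, hf, hfi, hfr⟩ := pullback_chart (igusaTo N ℓ) (gK ℓ K) (ιFin N ℓ)
  obtain ⟨g, hg, hgi, hgr⟩ := pullback_chart (igusaTo N ℓ) (gK ℓ K) (ιInf N ℓ)
  refine isIntegral_of_two f g ?_ ?_
  · intro x
    rw [hfr, hgr]
    exact mem_range_ιFin_or_mem_range_ιInf N ℓ _
  · obtain ⟨y⟩ : Nonempty (Spec (CommRingCat.of (LaurentSeries K))) := inferInstance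
    refine ⟨(ptK N ℓ K).base y, ?_, ?_⟩
    · rw [hfr]
      show (ptK N ℓ K ≫ pullback.fst (igusaTo N ℓ) (gK ℓ K)).base y ∈
        Set.range (ιFin N ℓ).base
      rw [ptK_fst]
      exact ⟨_, rfl⟩
    · rw [hgr]
      show (ptK N ℓ K ≫ pullback.fst (igusaTo N ℓ) (gK ℓ K)).base y ∈
        Set.range (ιInf N ℓ).base
      rw [ptK_fst, glue_condition]
      exact ⟨_, rfl⟩

end Fermat.Agent.S28
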