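import Fermat.Statements.S35
import Fermat.Agent.SSMod.S35Final

set_option autoImplicit false
set_option autoImplicit false
open Polynomial
open CuspForm CuspForm.IsNewform

namespace Fermat.Agent.S35

theorem result
    {M : ℕ} [NeZero M] {g : CuspForm (CongruenceSubgroup.Gamma0 M) 2} (hg : g.IsNewform)
    (lam : ℕ) [Fact lam.Prime]
    (S : Finset ℕ)
    (O' : Type) [CommRing O'] [IsDomain O'] [IsDiscreteValuationRing O']
    [IsAdicComplete (IsLocalRing.maximalIdeal O') O'] [Finite (IsLocalRing.ResidueField O')]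
    [CharZero O'] (hlamO' : (lam : O') ∈ IsLocalRing.maximalIdeal O')
    (chig : CuspForm.heckeAlgebra M 2 (↑S : Set ℕ) →+* ℂ)
    (hchig : ∀ (ℓ : ℕ) (hℓ : ℓ.Prime) (hℓM : ¬ ℓ ∣ M) (hℓS : ℓ ∉ (↑S : Set ℕ)),
      chig (CuspForm.heckeAlgebra.T hℓ hℓM hℓS) = ModularFormClass.qCoeff g ℓ)
    (iota : chig.range →+* O')
    (hlamS : lam ∈ S) (hMS : ∀ q : ℕ, q.Prime → q ∣ M → q ∈ S)
    :
    ∃ (O'' : Type) (_ : CommRing O'') (_ : IsDomain O'') (_ : IsDiscreteValuationRing O'')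
      (_ : IsAdicComplete (IsLocalRing.maximalIdeal O'') O'') (_ : Finite (IsLocalRing.ResidueField O''))
      (_ : CharZero O'') (_ : Algebra O' O'') (_ : Module.Finite O' O'') (_ : IsLocalHom (algebraMap O' O'')),
      Function.Injective (algebraMap O' O'') ∧
      ∃ ρ : GaloisRepAdic O'',
        (∀ (ℓ : ℕ) (hℓ : ℓ.Prime) (hℓM : ¬ ℓ ∣ M) (hℓS : ℓ ∉ (↑S : Set ℕ)),
          ∀ A : ValuationSubring (AlgebraicClosure ℚ), A.LiesOverPrime ℓ →
            ∀ σ : AlgebraicClosure ℚ ≃ₐ[ℚ] AlgebraicClosure ℚ, A.IsFrobeniusAt σ ℓ →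
              LinearMap.charpoly (ρ.ρ σ) =
                X ^ 2 - C (algebraMap O' O'' ((iota.comp chig.rangeRestrict) (CuspForm.heckeAlgebra.T hℓ hℓM hℓS))) * X
                  + C ((ℓ : O''))) ∧
        (∀ q : ℕ, q.Prime → q ≠ lam → q ∣ M → ¬ q ^ 2 ∣ M →
          ∀ A : ValuationSubring (AlgebraicClosure ℚ), A.LiesOverPrime q →
            ∀ σ : AlgebraicClosure ℚ ≃ₐ[ℚ] AlgebraicClosure ℚ, A.IsFrobeniusAt σ q →
              LinearMap.charpoly (ρ.ρ σ) = X ^ 2 - C ((q : O'') + 1) * X + C ((q : O'')) ∨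
              LinearMap.charpoly (ρ.ρ σ) = X ^ 2 + C ((q : O'') + 1) * X + C ((q : O''))) := by
  obtain ⟨B, i1, i2, i3, i4, i5, i6, i7, i8, i9, hinj, T, hT, hfr, -⟩ :=
    Fermat.Agent.GalRep.HData.exists_adic
      (D := Fermat.Agent.AnJac.hdata M lam (Fermat.Agent.HeckeQ.esHyp M lam))
      (S := (↑S : Set ℕ)) S.finite_toSet (NeZero.ne M) hlamO'
      ((iota.comp chig.rangeRestrict).comp (Fermat.Agent.GalRep.HData.Phi (↑S : Set ℕ)
        (Fermat.Agent.AnJac.hdata_link (Fermat.Agent.HeckeQ.esHyp M lam))))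
  have hlam : lam.Prime := Fact.out
  have hpB : (lam : B) ∈ IsLocalRing.maximalIdeal B := by
    have := map_nonunit (algebraMap O' B) (lam : O') hlamO'
    rwa [map_natCast] at this
  refine ⟨B, i1, i2, i3, i4, i5, i6, i7, i8, i9, hinj, Fermat.Agent.DefRing.matRep T hT, ?_, ?_⟩
  · intro ℓ hℓ hℓN hℓS A hA σ hσ
    have hℓNp : ¬ ℓ ∣ M * lam := by
      intro h
      rcases hℓ.dvd_mul.mp h with h | h
      · exact hℓN h
      · rw [(Nat.prime_dvd_prime_iff_eq hℓ hlam).mp h] at hℓS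
        exact hℓS hlamS
    obtain ⟨h1, h2⟩ := hfr ℓ hℓ hℓNp hℓS A hA σ hσ
    rw [RingHom.comp_apply, Fermat.Agent.GalRep.HData.Phi_T _ _ hℓ hℓNp hℓS] at h1
    rw [Fermat.Agent.GalRep.charpoly_matRep, h1, h2]
  · intro q hq hqp hqM hq2 A hA σ hσ
    have hπ : Fermat.Agent.GalRep.HData.FrobCond
        (D := Fermat.Agent.AnJac.hdata M lam (Fermat.Agent.HeckeQ.esHyp M lam))
        (S := (↑S : Set ℕ))
        ((((algebraMap O' B).comp iota).comp chig.rangeRestrict).comp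
          (Fermat.Agent.GalRep.HData.Phi (↑S : Set ℕ)
            (Fermat.Agent.AnJac.hdata_link (Fermat.Agent.HeckeQ.esHyp M lam)))) T := hfr
    have htr := Fermat.Agent.SSMod.trace_newform Fermat.Agent.SSMod.jl23 hg S hpB chig hchig
      ((algebraMap O' B).comp iota) hT hπ hq hqp hqM hq2 hA hσ
    have hdet := Fermat.Agent.SSMod.det_of_cycP (y := (q : ℤ)) S.finite_toSet (NeZero.ne M) hpB hT hπ
      (σ := σ) (by
        rw [Fermat.Agent.GalRep.cycP_frob lam hq hA hqp hσ]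
        simp)
    rw [Int.cast_natCast] at hdet
    rcases htr with htr | htr
    · left
      rw [Fermat.Agent.GalRep.charpoly_matRep, htr, hdet]
    · right
      rw [Fermat.Agent.GalRep.charpoly_matRep, htr, hdet, map_neg]
      ring

end Fermat.Agent.S35
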