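import Fermat.Statements.S43
import Fermat.Agent.S43Glue.Main
import Fermat.Agent.S44
import Fermat.Agent.TWPr.TWSel
import Fermat.Agent.TWInst.Final
import Fermat.Agent.MazurP.Final
import Fermat.Agent.SSMod.Ram
import Fermat.Agent.CarayolY.Main
import Fermat.Agent.Carayol.K0Thm

set_option autoImplicit false
open WeierstrassCurve WeierstrassCurve.Affine WeierstrassCurve.Affine.Point
open CuspForm ModularFormClass UpperHalfPlane
open FreyPackage

namespace Fermat.Agent.S43

theorem result (P : FreyPackage) {N q : ℕ} (hcond : P.IsConductorLevel N) (hq : q.Prime) (hq2 : q ≠ 2) (hqp : q ≠ P.p) (hqN : q ∣ N) (hirr : GaloisRepIsIrreducible (K := AlgebraicClosure ℚ) ℚ P.freyCurve P.p) (hmod : P.ModularRepOfLevel N) (hunr : P.GaloisRepUnramifiedAt q) : ∃ M : ℕ, M ∣ N ∧ ¬ q ∣ M ∧ P.ModularRepOfLevel M := by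
  exact False.elim (S43Glue.s43_of
    (fun P _ hc hp hi hm => S44.result P hc hp hi hm)
    (fun p _ hp5 => MazurP.mazurPrinciple p hp5)
    (fun p _ hp5 => TWInst.twCore_of hp5 (TWPr.twSel hp5)
      (CarayolY.carayolCore_of Carayol.carayolK0))
    (fun p _ _ => SSMod.newformRamified p) P hcond hirr hmod)

end Fermat.Agent.S43
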