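import Fermat.Statements.S49
import Fermat.Agent.DSLift.Finite

set_option autoImplicit false
open CuspForm EisensteinWeightOne CongruenceSubgroup ModularFormClass
open FLT FLT.AbstractIntegralStructure

namespace Fermat.Agent.S49

lemma coeff_bridgeProduct (a : ℕ → ℤ) (n : ℕ) : (3 : ℤ) ∣ (bridgeProduct a).coeff n - a n := by
  have h1 : e1Chi3In ℤ = 1 + PowerSeries.C (6 : ℤ) *
      PowerSeries.mk (fun n => if n = 0 then 0 else sigmaChi n) := by
    ext m
    rw [e1Chi3In, PowerSeries.coeff_map, e1Chi3, PowerSeries.coeff_mk, map_add,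
      PowerSeries.coeff_C_mul, PowerSeries.coeff_mk, PowerSeries.coeff_one]
    by_cases hm : m = 0 <;> simp [hm]
  have h2 : bridgeProduct a = PowerSeries.mk a + PowerSeries.C (6 : ℤ) *
      (PowerSeries.mk a * PowerSeries.mk (fun n => if n = 0 then 0 else sigmaChi n)) := by
    rw [bridgeProduct, h1]; ring
  rw [h2, map_add, PowerSeries.coeff_C_mul, PowerSeries.coeff_mk, add_sub_cancel_left]
  exact Dvd.dvd.mul_right (by norm_num) _

lemma three_dvd_sub_chi (p : ℕ) : (3 : ℤ) ∣ (p : ℤ) - chiNegThree p := by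
  unfold chiNegThree
  split_ifs <;> omega

theorem result
    {N : ℕ} [NeZero N] (h : CuspForm.HasIntegralBasis N) {a : ℕ → ℤ}
    (heig : FormalHecke.IsEigensystem
      (fun ℓ => if ℓ ∣ N then 0 else ((chiNegThree ℓ : ℤ) : ℤ)) a)
    (hreal : CuspForm.IsLatticeRealized N a) :
    ∃ (f : CuspForm (Gamma0 N) 2) (_ : f.IsNormalizedEigenform)
      (𝔪' : Ideal (integralClosure ℤ ℂ)), 𝔪'.IsMaximal ∧
      ((3 : ℕ) : integralClosure ℤ ℂ) ∈ 𝔪' ∧
      ∀ (ℓ : ℕ) (_ : ℓ.Prime) (_ : ¬ ℓ ∣ N),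
        ∃ c : integralClosure ℤ ℂ, (c : ℂ) = ModularFormClass.qCoeff f ℓ ∧
          c - (a ℓ : integralClosure ℤ ℂ) ∈ 𝔪' := by
  obtain ⟨f₀, -, af, haf, hcong⟩ := hreal
  have hfin := Fermat.Agent.DSLift.moduleFinite_heckeAlgebra_of_hasIntegralStructure N ∅
    (Fermat.Agent.DSLift.hasIntegralStructure_of_hasIntegralBasis N h)
  have haf' : ∀ n, (3 : ℤ) ∣ af n - a n := fun n => by
    have := dvd_add (hcong n) (coeff_bridgeProduct a n)
    simpa using this
  have h1 : ¬ ((3 : ℕ) : ℤ) ∣ af 1 := by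
    intro hd
    have h2 := dvd_sub hd (haf' 1)
    rw [heig.1] at h2
    simp only [Nat.cast_ofNat] at h2
    omega
  obtain ⟨f, hf, 𝔪', hmax, h3, hℓ⟩ := Fermat.Agent.DSLift.exists_eigenform_congruent N
    (r := 3) (by norm_num) f₀ af (fun n => (haf n).symm) h1 a (by
      intro p hp n
      have e1 := heig.2 p hp n
      have e2 := haf' (n * p)
      have e3 := haf' (n / p)
      have e4 := haf' n
      have e5 := three_dvd_sub_chi p
      obtain ⟨x2, h2⟩ := e2
      obtain ⟨x3, h3⟩ := e3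
      obtain ⟨x4, h4⟩ := e4
      obtain ⟨x5, h5⟩ := e5
      rw [mul_comm p n] at e1
      simp only [Nat.cast_ofNat]
      by_cases hpN : p ∣ N
      · simp only [hpN, if_true, zero_mul, add_zero] at e1 ⊢
        refine ⟨x2 - a p * x4, ?_⟩
        linear_combination h2 - a p * h4 + e1
      · by_cases hpn : p ∣ n
        · simp only [hpN, hpn, if_true, if_false, Int.cast_id] at e1 ⊢
          refine ⟨x2 + (p : ℤ) * x3 + x5 * a (n / p) - a p * x4, ?_⟩
          linear_combination h2 + (p : ℤ) * h3 + a (n / p) * h5 - a p * h4 + e1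
        · simp only [hpN, hpn, if_false, mul_zero, add_zero] at e1 ⊢
          refine ⟨x2 - a p * x4, ?_⟩
          linear_combination h2 - a p * h4 + e1)
  exact ⟨f, hf, 𝔪', hmax, h3, fun ℓ hp _ => hℓ ℓ hp⟩

end Fermat.Agent.S49
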