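import Fermat.Statements.S54
import Fermat.Agent.Frob.Qbar

set_option autoImplicit false
set_option linter.style.haveILetI false
open GaloisRep GaloisRep.DeformationRingData

namespace Fermat.Agent.S54

theorem result {𝒪 : Type} [CommRing 𝒪] [IsDomain 𝒪] [IsDiscreteValuationRing 𝒪] [IsAdicComplete (IsLocalRing.maximalIdeal 𝒪) 𝒪] {ρbar : ResidualGaloisRep (IsLocalRing.ResidueField 𝒪)} {𝒟 : ∀ ⦃A : Type⦄ [CommRing A] [IsLocalRing A] [Algebra 𝒪 A], GaloisRepAdic A → Prop} (D : GaloisRep.DeformationRingData 𝒪 ρbar 𝒟) {N : ℕ} [NeZero N] {S : Set ℕ} {θ : CuspForm.heckeAlgebra N 2 S →+* IsLocalRing.ResidueField 𝒪} {T : Type} [CommRing T] [IsLocalRing T] [IsNoetherianRing T] [IsAdicComplete (IsLocalRing.maximalIdeal T) T] [Algebra 𝒪 T] [IsLocalHom (algebraMap 𝒪 T)] [Module.Finite 𝒪 T] [Module.Free 𝒪 T] (H : CuspForm.HeckeGaloisRepDatum N S 𝒪 θ T) (hS : ∀ q : ℕ, q.Prime → q ∣ N → q ∈ S) (h𝒟 : 𝒟 H.ρ) (hres :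 H.ρ.residual.IsEquiv (ρbar.baseChangeAlong (IsLocalRing.ResidueField.map (algebraMap 𝒪 T)))) : ∃ φ : D.R →ₐ[𝒪] T, Function.Surjective φ ∧ ∃ hφ : IsLocalHom (φ : D.R →+* T), (D.ρ.baseChangeAlong (φ : D.R →+* T) hφ).IsEquiv H.ρ := by
  obtain ⟨φ, ⟨hφ, hequiv⟩, -⟩ := D.universal T H.residue_surjective H.ρ h𝒟 hres
  refine ⟨φ, ?_, hφ, hequiv⟩
  obtain ⟨e⟩ := hequiv
  -- characteristic polynomials
  have hcp : ∀ σ : AlgebraicClosure ℚ ≃ₐ[ℚ] AlgebraicClosure ℚ,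
      LinearMap.charpoly (H.ρ.ρ σ) = (LinearMap.charpoly (D.ρ.ρ σ)).map (φ : D.R →+* T) := by
    intro σ
    letI : Algebra D.R T := (φ : D.R →+* T).toAlgebra
    have h1 : H.ρ.ρ σ = e.toLinearEquiv.conj ((D.ρ.baseChangeAlong (φ : D.R →+* T) hφ).ρ σ) := by
      refine LinearMap.ext fun x => ?_
      rw [LinearEquiv.conj_apply_apply, e.map_apply, LinearEquiv.apply_symm_apply]
    rw [h1, LinearEquiv.charpoly_conj]
    exact LinearMap.charpoly_baseChange (D.ρ.ρ σ) T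
  have hgen : ∀ t : CuspForm.heckeAlgebra N 2 S, H.π t ∈ φ.range := by
    rintro ⟨t, ht⟩
    refine Algebra.adjoin_induction (p := fun x hx => H.π ⟨x, hx⟩ ∈ φ.range) ?_ ?_ ?_ ?_ ht
    · rintro x (⟨ℓ, hℓ, hℓN, hℓS, rfl⟩ | ⟨q, hqN, hq, hqS, rfl⟩)
      · obtain ⟨A, hA, σ, hσ⟩ := Fermat.Agent.Frob.exists_place_frobenius hℓ
        have h1 := H.charpoly_frob ℓ hℓ hℓN hℓS A hA σ hσ
        rw [hcp σ] at h1
        have h2 := congrArg (fun f => f.coeff 1) h1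
        simp only [Polynomial.coeff_map, Polynomial.coeff_add, Polynomial.coeff_sub,
          Polynomial.coeff_X_pow, Polynomial.coeff_C_mul, Polynomial.coeff_X_one,
          Polynomial.coeff_C, mul_one] at h2
        have h3 : H.π (CuspForm.heckeAlgebra.T hℓ hℓN hℓS) =
            φ (-(LinearMap.charpoly (D.ρ.ρ σ)).coeff 1) := by
          rw [map_neg]
          have h4 : (φ : D.R →+* T) ((LinearMap.charpoly (D.ρ.ρ σ)).coeff 1) =
            φ ((LinearMap.charpoly (D.ρ.ρ σ)).coeff 1) := rfl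
          rw [← h4, h2]
          simp
        exact ⟨_, h3.symm⟩
      · exact absurd (hS q hq hqN) hqS
    · intro n
      have h1 : (⟨algebraMap ℤ _ n, Subalgebra.algebraMap_mem _ n⟩ :
          CuspForm.heckeAlgebra N 2 S) = algebraMap ℤ (CuspForm.heckeAlgebra N 2 S) n := rfl
      rw [h1, eq_intCast, map_intCast]
      exact intCast_mem _ n
    · intro x y hx hy h1 h2
      have h3 : (⟨x + y, add_mem hx hy⟩ : CuspForm.heckeAlgebra N 2 S) = ⟨x, hx⟩ + ⟨y, hy⟩ := rfl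
      rw [h3, map_add]
      exact add_mem h1 h2
    · intro x y hx hy h1 h2
      have h3 : (⟨x * y, mul_mem hx hy⟩ : CuspForm.heckeAlgebra N 2 S) = ⟨x, hx⟩ * ⟨y, hy⟩ := rfl
      rw [h3, map_mul]
      exact mul_mem h1 h2
  have htop : φ.range = ⊤ := by
    rw [_root_.eq_top_iff, ← H.adjoin_range_π, Algebra.adjoin_le_iff]
    rintro _ ⟨t, rfl⟩
    exact hgen t
  exact (AlgHom.range_eq_top φ).mp htop

end Fermat.Agent.S54
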