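import Fermat.Statements.S55
import Fermat.Agent.CFT.Sha5

set_option autoImplicit false
set_option autoImplicit false
open CategoryTheory Module groupCohomology ExtCitation
open groupCohomology

namespace Fermat.Agent.S55

open Fermat.Agent.CFT

theorem cyclo_spec {p : ℕ} [hp : Fact p.Prime] {ζ : Qb} (hζ : IsPrimitiveRoot ζ p) (g : GQ) :
    g ζ = ζ ^ ((cycloChar p g : (ZMod p)ˣ) : ZMod p).val := by
  haveI : NeZero p := ⟨hp.out.ne_zero⟩
  have h0 : (hζ.isUnit hp.out.ne_zero).unit ∈ rootsOfUnity p Qb := by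
    rw [mem_rootsOfUnity]
    apply Units.ext
    rw [Units.val_pow_eq_pow_val, IsUnit.unit_spec, hζ.pow_eq_one, Units.val_one]
  exact modularCyclotomicCharacter.spec (AlgebraicClosure ℚ) (card_rootsOfUnity_eq_self p)
    (g : AlgebraicClosure ℚ ≃+* AlgebraicClosure ℚ) h0

theorem cyclo_eq {p : ℕ} [hp : Fact p.Prime] {ζ : Qb} (hζ : IsPrimitiveRoot ζ p) (g : GQ)
    (c : ZMod p) (hc : g ζ = ζ ^ c.val) : ((cycloChar p g : (ZMod p)ˣ) : ZMod p) = c := by
  have h1 := cyclo_spec hζ g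
  rw [hc] at h1
  exact ZMod.val_injective p (hζ.pow_inj (ZMod.val_lt _) (ZMod.val_lt _) h1.symm)

/-- the field cut out by the module -/
theorem exists_level {p : ℕ} [hp : Fact p.Prime] (S : Finset Nat.Primes)
    (M : Rep (ZMod p) (AlgebraicClosure ℚ ≃ₐ[ℚ] AlgebraicClosure ℚ)) [Finite M]
    (hsm : ∀ m : M, ∃ F : IntermediateField ℚ (AlgebraicClosure ℚ), FiniteDimensional ℚ F ∧
      ∀ s ∈ F.fixingSubgroup, M.ρ s m = m)
    (hMur : ∀ q : Nat.Primes, q ∉ S → ∀ A : ValuationSubring (AlgebraicClosure ℚ),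
      A.LiesOverPrime (q : ℕ) → ∀ g ∈ A.inertiaSubgroupIn ℚ, M.ρ g = 1) :
    ∃ E : IntermediateField ℚ Qb, E.IsUnramifiedOutside S ∧
      ∀ s ∈ E.fixingSubgroup, M.ρ s = 1 := by
  haveI := Fermat.Agent.Frob.isGalois_Qbar
  choose F hF hFf using hsm
  haveI := hF
  let E0 : IntermediateField ℚ Qb := ⨆ m : M, F m
  haveI : FiniteDimensional ℚ E0 := inferInstance
  let N : Subgroup GQ := M.ρ.ker
  have hN : ∀ g, g ∈ N ↔ M.ρ g = 1 := fun g => Iff.rfl
  have hE0N : E0.fixingSubgroup ≤ N := by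
    intro g hg
    rw [hN]
    ext m
    exact hFf m g (IntermediateField.fixingSubgroup_antitone (le_iSup F m) hg)
  have hopen : IsOpen (N : Set GQ) := Subgroup.isOpen_mono hE0N
    (IntermediateField.fixingSubgroup_isOpen E0)
  have h := InfiniteGalois.fixingSubgroup_fixedField (k := ℚ) (K := Qb)
    ⟨N, Subgroup.isClosed_of_isOpen _ hopen⟩
  have h' : (IntermediateField.fixedField N).fixingSubgroup = N := h
  have hle : IntermediateField.fixedField N ≤ E0 := by
    rw [← InfiniteGalois.fixedField_fixingSubgroup E0]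
    intro x hx
    rw [IntermediateField.mem_fixedField_iff] at hx ⊢
    exact fun g hg => hx g (hE0N hg)
  refine ⟨IntermediateField.fixedField N, ⟨?_, fun q hq A hA g hg => ?_⟩, fun s hs => ?_⟩
  · exact FiniteDimensional.of_injective (IntermediateField.inclusion hle).toLinearMap
      (IntermediateField.inclusion_injective hle)
  · rw [h', hN]
    exact hMur q hq A hA g hg
  · rw [h', hN] at hs
    exact hs

theorem result
    {p : ℕ} [Fact p.Prime] (hp2 : p ≠ 2) (S : Finset Nat.Primes) (hpS : pPrime p ∈ S)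
    (M : Rep (ZMod p) (AlgebraicClosure ℚ ≃ₐ[ℚ] AlgebraicClosure ℚ))
    [FiniteDimensional (ZMod p) M]
    (hsm : ∀ m : M, ∃ F : IntermediateField ℚ (AlgebraicClosure ℚ), FiniteDimensional ℚ F ∧
      ∀ s ∈ F.fixingSubgroup, M.ρ s m = m)
    (hMur : ∀ q : Nat.Primes, q ∉ S → ∀ A : ValuationSubring (AlgebraicClosure ℚ),
      A.LiesOverPrime (q : ℕ) → ∀ g ∈ A.inertiaSubgroupIn ℚ, M.ρ g = 1) :
    ∃ B : sha₁ S (M.dualTwist (cycloChar p)) →ₗ[ZMod p] sha₂ S M →ₗ[ZMod p] ZMod p,
      (∀ y, (∀ x, B y x = 0) → y = 0) ∧ (∀ x, (∀ y, B y x = 0) → x = 0) := by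
  classical
  have hp := (inferInstance : Fact p.Prime)
  have hp3 : 2 < p := lt_of_le_of_ne hp.out.two_le (Ne.symm hp2)
  haveI hMf : Finite M := Module.finite_of_finite (ZMod p)
  haveI hVf : Finite (Module.Dual (ZMod p) M) := Module.finite_of_finite (ZMod p)
  haveI hVf' : Finite (M.dualTwist (cycloChar p)) := hVf
  have hζ : IsPrimitiveRoot (zN p 0) p := by
    have := zN_spec p 0
    rwa [zero_add, pow_one] at this
  letI aW := repAct M
  letI aV := repAct (M.dualTwist (cycloChar p))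
  let B : (M.dualTwist (cycloChar p)) →+ M →+ ZMod p :=
    AddMonoidHom.mk' (fun v => (show Module.Dual (ZMod p) M from v).toAddMonoidHom)
      (fun v v' => rfl)
  have hBv : ∀ (v : M.dualTwist (cycloChar p)) (w : M),
    B v w = (show Module.Dual (ZMod p) M from v) w := fun _ _ => rfl
  have hact : ∀ (g : GQ) (v : M.dualTwist (cycloChar p)) (w : M),
      B (g • v) w = ((cycloChar p g : (ZMod p)ˣ) : ZMod p) * B v (M.ρ g⁻¹ w) := fun _ _ _ => rfl
  have hB : PData p (zN p 0) B := by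
    refine ⟨fun v => tors_rep (M.dualTwist (cycloChar p)) v, fun g c hc v w => ?_, fun w hw => ?_,
      fun f => ?_⟩
    · have h1 : g • w = M.ρ g w := rfl
      have h2 : M.ρ g⁻¹ (M.ρ g w) = w := by
        rw [← Module.End.mul_apply, ← map_mul, inv_mul_cancel, map_one]; rfl
      rw [hact, h1, h2, cyclo_eq hζ g c hc]
    · exact (Module.forall_dual_apply_eq_zero_iff (ZMod p) w).mp hw
    · let f' : Module.Dual (ZMod p) (Module.Dual (ZMod p) M) :=
        AddMonoidHom.toZModLinearMap p f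
      obtain ⟨w, hw⟩ := (Module.evalEquiv (ZMod p) M).surjective f'
      refine ⟨w, fun v => ?_⟩
      have h1 := LinearMap.congr_fun hw v
      exact h1.symm
  have hV : ∃ E : IntermediateField ℚ Qb, E.IsUnramifiedOutside S ∧
      ∀ s ∈ E.fixingSubgroup, ∀ v : M.dualTwist (cycloChar p), s • v = v := by
    obtain ⟨E, hE, hEf⟩ := exists_level S M hsm hMur
    have hZ : (Zf p 0).IsUnramifiedOutside S := (Zf_unram (p := p) 0).mono (sub0 hpS)
    refine ⟨E ⊔ Zf p 0, hE.sup hZ, fun s hs v => ?_⟩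
    have h1 : M.ρ s⁻¹ = 1 := hEf _ (inv_mem
      (IntermediateField.fixingSubgroup_antitone le_sup_left hs))
    have h2 : s (zN p 0) = zN p 0 := (mem_Zf_fixing p 0).mp
      (IntermediateField.fixingSubgroup_antitone le_sup_right hs)
    have h3 : ((cycloChar p s : (ZMod p)ˣ) : ZMod p) = 1 := cyclo_eq hζ s 1 (by
      haveI : Fact (1 < p) := ⟨hp.out.one_lt⟩
      rw [ZMod.val_one, pow_one, h2])
    refine LinearMap.ext fun w => ?_
    have h4 := hact s v w
    rw [h3, one_mul, h1] at h4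
    exact h4
  obtain ⟨h1, h2, h3⟩ := sha_count hp3 hpS hζ hB hV
  obtain ⟨e1⟩ := card_sha1 (M.dualTwist (cycloChar p)) S hp2
  obtain ⟨e2⟩ := card_sha2 M S hp2
  haveI := h1
  haveI := h2
  haveI f1 : Finite (sha₁ S (M.dualTwist (cycloChar p))) := Finite.of_equiv _ e1
  haveI f2 : Finite (sha₂ S M) := Finite.of_equiv _ e2
  have hc : Nat.card (sha₂ S M) = Nat.card (sha₁ S (M.dualTwist (cycloChar p))) := by
    rw [← Nat.card_congr e1, ← Nat.card_congr e2, h3]
  haveI : Module.Finite (ZMod p) (sha₁ S (M.dualTwist (cycloChar p))) := inferInstance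
  haveI : Module.Finite (ZMod p) (sha₂ S M) := inferInstance
  have hr : finrank (ZMod p) (sha₂ S M) =
      finrank (ZMod p) (Module.Dual (ZMod p) (sha₁ S (M.dualTwist (cycloChar p)))) := by
    rw [Subspace.dual_finrank_eq]
    have a1 := Module.natCard_eq_pow_finrank (K := ZMod p) (V := sha₂ S M)
    have a2 := Module.natCard_eq_pow_finrank (K := ZMod p)
      (V := sha₁ S (M.dualTwist (cycloChar p)))
    rw [hc, a2, Nat.card_zmod] at a1
    exact (Nat.pow_right_injective hp.out.two_le a1).symm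
  let e := LinearEquiv.ofFinrankEq _ _ hr
  refine ⟨e.toLinearMap.flip, fun y hy => ?_, fun x hx => ?_⟩
  · refine (Module.forall_dual_apply_eq_zero_iff (ZMod p) y).mp (fun f => ?_)
    obtain ⟨x, rfl⟩ := e.surjective f
    exact hy x
  · rw [← e.map_eq_zero_iff]
    exact LinearMap.ext hx

end Fermat.Agent.S55
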